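import Mathlib
import Fermat.Agent.LT.T2.H941.SmoSpec

/-!
# Row LT, tower T2, leaf T2.10.05 `ExtendC`, part 1 (helper439, OFF-MAIN)

Vocabulary: `LT/T2/H941/SmoSpec.lean` v2 (helper941@3ff5e4e6b, sha256 14c4d13ef051), byte-identical
copy.

* `multGrp439 Ψ` : the SUBGROUP of the right multipliers of `Ψ`, i.e. of the `u ∈ GL₂(𝔸_K)` with
  `Ψ(g u) = c Ψ(g)` for a constant `c` (if `c = 0` then `Ψ = 0`, so the set is stable under
  inverses).
* `wh_mul_right439` : the vanishing of the Whittaker coefficient at `h` passes to `h u` for a right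
  multiplier `u`.
* `wh_unip439` : `W(n(a) g) = ψ(a) W(g)` (the argument of helper8 `LT/T2/H8/WhEquiv.lean`, copied
  with new names so that this file depends on `SmoSpec` only).
-/

set_option autoImplicit false
set_option linter.style.haveILetI false

open IsDedekindDomain NumberField MeasureTheory AutomorphicForm
open Fermat.Agent.LT.H556.A0
open scoped ComplexConjugate

noncomputable section

namespace Fermat.Agent.LT.T2.H439

open Fermat.Agent.LT
open Fermat.Agent.LT.T2.H941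

variable {K : Type} [Field K] [NumberField K]

/-! ## The group of right multipliers -/

/-- The right multipliers of `Ψ`: `Ψ(g u) = c Ψ(g)` for all `g`, with a constant `c`. -/
def multGrp439 (Ψ : G K → ℂ) : Subgroup (G K) where
  carrier := {u | ∃ c : ℂ, ∀ g : G K, Ψ (g * u) = c * Ψ g}
  one_mem' := ⟨1, fun g => by rw [mul_one, one_mul]⟩
  mul_mem' := by
    rintro u u' ⟨c, hc⟩ ⟨c', hc'⟩
    exact ⟨c' * c, fun g => by rw [← mul_assoc, hc', hc, mul_assoc]⟩
  inv_mem' := by
    rintro u ⟨c, hc⟩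
    by_cases h0 : c = 0
    · refine ⟨0, fun g => ?_⟩
      have hz : ∀ x : G K, Ψ x = 0 := fun x => by
        have h := hc (x * u⁻¹)
        rw [inv_mul_cancel_right, h0, zero_mul] at h
        exact h
      rw [hz, zero_mul]
    · refine ⟨c⁻¹, fun g => ?_⟩
      have h := hc (g * u⁻¹)
      rw [inv_mul_cancel_right] at h
      rw [h, ← mul_assoc, inv_mul_cancel₀ h0, one_mul]

theorem mem_multGrp439 {Ψ : G K → ℂ} {u : G K} :
    u ∈ multGrp439 Ψ ↔ ∃ c : ℂ, ∀ g : G K, Ψ (g * u) = c * Ψ g := Iff.rfl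

/-- An element under which `Ψ` is right invariant is a right multiplier. -/
theorem mem_multGrp_of_inv439 {Ψ : G K → ℂ} {u : G K} (h : ∀ g : G K, Ψ (g * u) = Ψ g) :
    u ∈ multGrp439 Ψ :=
  ⟨1, fun g => by rw [h, one_mul]⟩

/-! ## The Whittaker coefficient -/

/-- The vanishing of the Whittaker coefficient passes from `h` to `h u`, `u` a right
multiplier. -/
theorem wh_mul_right439 (ψ : AddChar (Adl K) Circle) {m : MeasurableSpace (Adl K)}
    (ν : Measure (Adl K)) (D : Set (Adl K)) (Ψ : G K → ℂ) {u : G K} (hu : u ∈ multGrp439 Ψ)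
    (h : G K) (hz : wh ψ ν D Ψ h = 0) : wh ψ ν D Ψ (h * u) = 0 := by
  obtain ⟨c, hc⟩ := hu
  have e : ∀ x : Adl K, Ψ (T3.unip K x * (h * u)) * conj ((ψ x : Circle) : ℂ)
      = c * (Ψ (T3.unip K x * h) * conj ((ψ x : Circle) : ℂ)) := by
    intro x
    rw [← mul_assoc, hc, mul_assoc]
  unfold wh at hz ⊢
  rw [integral_congr_ae (Filter.Eventually.of_forall e), integral_const_mul, hz, mul_zero]

/-- The rational unipotent element `n(ξ) = [[1, ξ], [0, 1]]` of `GL₂(K)`. -/
def unipK439 (ξ : K) : GL (Fin 2) K :=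
  ⟨!![1, ξ; 0, 1], !![1, -ξ; 0, 1],
    by ext i j; fin_cases i <;> fin_cases j <;> simp [Matrix.mul_apply, Fin.sum_univ_two],
    by ext i j; fin_cases i <;> fin_cases j <;> simp [Matrix.mul_apply, Fin.sum_univ_two]⟩

/-- `n(emb ξ)` is the image of the rational unipotent element. -/
theorem ratG_unipK439 (ξ : K) : T1.ratG K (unipK439 ξ) = T3.unip K (T3.emb K ξ) := by
  apply Units.ext
  ext i j
  fin_cases i <;> fin_cases j <;>
    simp [T1.ratG, T3.unip, unipK439, Matrix.GeneralLinearGroup.map]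

/-- `n(x + y) = n(x) n(y)`. -/
theorem unip_add439 (x y : Adl K) : T3.unip K (x + y) = T3.unip K x * T3.unip K y := by
  apply Units.ext
  ext i j
  fin_cases i <;> fin_cases j <;>
    simp [T3.unip, Matrix.mul_apply, Fin.sum_univ_two, add_comm]

/-- The integrand of the Whittaker coefficient is `K`-periodic. -/
theorem whIntegrand_periodic439 (ψ : AddChar (Adl K) Circle) (hψ : T3.IsStdChar K ψ)
    (Φ : G K → ℂ) (hΦ : ∀ (γ : GL (Fin 2) K) (g : G K), Φ (T1.ratG K γ * g) = Φ g) (g : G K)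
    (ξ : T1.princ K) (x : Adl K) :
    Φ (T3.unip K (ξ +ᵥ x) * g) * conj ((ψ (ξ +ᵥ x) : Circle) : ℂ)
      = Φ (T3.unip K x * g) * conj ((ψ x : Circle) : ℂ) := by
  obtain ⟨ξ, k, rfl⟩ := ξ
  have h1 : (⟨(algebraMap K (Adl K)).toAddMonoidHom k, ⟨k, rfl⟩⟩ : T1.princ K) +ᵥ x
      = T3.emb K k + x := rfl
  rw [h1, unip_add439, ← ratG_unipK439, mul_assoc, hΦ, AddChar.map_add_eq_mul, hψ.triv k,
    one_mul]

/-- `W(n(a) g) = ψ(a) W(g)` for a left `GL₂(K)`-invariant function. -/
theorem wh_unip439 (ψ : AddChar (Adl K) Circle) (ν : @Measure (Adl K) (borel (Adl K)))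
    (D : Set (Adl K)) (hW : @IsWhitData K _ _ ψ (borel (Adl K)) ν D) (Φ : G K → ℂ)
    (hΦ : ∀ (γ : GL (Fin 2) K) (g : G K), Φ (T1.ratG K γ * g) = Φ g) (a : Adl K) (g : G K) :
    @wh K _ _ ψ (borel (Adl K)) ν D Φ (T3.unip K a * g)
      = ((ψ a : Circle) : ℂ) * @wh K _ _ ψ (borel (Adl K)) ν D Φ g := by
  letI : MeasurableSpace (Adl K) := borel (Adl K)
  haveI : BorelSpace (Adl K) := ⟨rfl⟩
  obtain ⟨hψ, -, -, hν, -, hD, -⟩ := hW
  haveI := hν
  haveI : Countable (T1.princ K) := by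
    have : Countable K := Finsupp.Countable.of_moduleFinite (R := ℚ) (M := K)
    exact (AddMonoidHom.rangeRestrict_surjective
      ((algebraMap K (Adl K)).toAddMonoidHom)).countable
  set F : Adl K → ℂ := fun x => Φ (T3.unip K x * g) * conj ((ψ x : Circle) : ℂ) with hF
  have hFper : ∀ (ξ : T1.princ K) (x : Adl K), F (ξ +ᵥ x) = F x := fun ξ x =>
    whIntegrand_periodic439 ψ hψ Φ hΦ g ξ x
  have hint : ∀ x : Adl K,
      Φ (T3.unip K x * (T3.unip K a * g)) * conj ((ψ x : Circle) : ℂ)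
        = ((ψ a : Circle) : ℂ) * F (x + a) := by
    intro x
    have hn : ((ψ a : Circle) : ℂ) * conj ((ψ a : Circle) : ℂ) = 1 := by
      rw [Complex.mul_conj, Complex.normSq_eq_norm_sq, Circle.norm_coe]
      simp
    simp only [hF]
    rw [unip_add439, mul_assoc, AddChar.map_add_eq_mul, Circle.coe_mul, map_mul]
    calc Φ (T3.unip K x * (T3.unip K a * g)) * conj ((ψ x : Circle) : ℂ)
        = Φ (T3.unip K x * (T3.unip K a * g)) * conj ((ψ x : Circle) : ℂ)
            * (((ψ a : Circle) : ℂ) * conj ((ψ a : Circle) : ℂ)) := by rw [hn, mul_one]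
      _ = ((ψ a : Circle) : ℂ) * (Φ (T3.unip K x * (T3.unip K a * g))
            * (conj ((ψ x : Circle) : ℂ) * conj ((ψ a : Circle) : ℂ))) := by ring
  have hmp : MeasurePreserving (fun y : Adl K => y + (-a)) ν ν :=
    measurePreserving_add_right ν (-a)
  have hD' : IsAddFundamentalDomain (T1.princ K) ((fun y : Adl K => y + (-a)) ⁻¹' D) ν := by
    refine hD.preimage_of_equiv hmp.quasiMeasurePreserving (e := id) Function.bijective_id ?_
    intro ξ y
    change ((ξ : Adl K) + y) + (-a) = (ξ : Adl K) + (y + (-a))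
    rw [add_assoc]
  have hemb : MeasurableEmbedding (fun y : Adl K => y + (-a)) :=
    (MeasurableEquiv.addRight (-a)).measurableEmbedding
  have hcv : ∫ y in D, F (y + a) ∂ν
      = ∫ x in (fun y : Adl K => y + (-a)) ⁻¹' D, F x ∂ν := by
    have h := hmp.setIntegral_preimage_emb hemb (fun y => F (y + a)) D
    simp only [neg_add_cancel_right] at h
    exact h.symm
  unfold wh
  calc ∫ x in D, Φ (T3.unip K x * (T3.unip K a * g)) * conj ((ψ x : Circle) : ℂ) ∂ν
      = ∫ x in D, ((ψ a : Circle) : ℂ) * F (x + a) ∂ν :=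
        integral_congr_ae (Filter.Eventually.of_forall hint)
    _ = ((ψ a : Circle) : ℂ) * ∫ x in D, F (x + a) ∂ν := integral_const_mul _ _
    _ = ((ψ a : Circle) : ℂ) * ∫ x in (fun y : Adl K => y + (-a)) ⁻¹' D, F x ∂ν := by rw [hcv]
    _ = ((ψ a : Circle) : ℂ) * ∫ x in D, F x ∂ν := by
        rw [hD'.setIntegral_eq hD hFper]

end Fermat.Agent.LT.T2.H439

end
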