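import Mathlib
import Fermat.Agent.LT.T2.H439.Mult
import Fermat.Agent.LT.H129.HeckeLevel
import Fermat.Agent.LT.T2.H429.Loc
import Fermat.Agent.LT.T1.H919.SiegelTools

/-!
# Row LT, tower T2, leaf T2.10.05 `ExtendC`, part 2 (helper439, OFF-MAIN)

Elements of the group `multGrp439 Ψ` of right multipliers of an extendable function `Ψ`
(`H941.IsExtendable 𝔪 Ψ`): the level group, the compact subgroups and the positive scalars at the
infinite places, the scalar uniformisers at `v ∤ 𝔪`; hence (finite induction over the places)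
every central element which is trivial at the places dividing `𝔪`.

Assets (byte-identical copies): helper129 `LT/H129/{Comp,Local,HeckeLevel}.lean`, helper429
`LT/T2/H429/Loc.lean`, helper793 `LT/T1/H793/AdeleProj.lean`, helper919
`LT/T1/H919/SiegelTools.lean`.
-/

set_option autoImplicit false
set_option linter.style.haveILetI false
set_option linter.unusedSectionVars false

open IsDedekindDomain NumberField AutomorphicForm
open Fermat.Agent.LT.H556.A0
open Fermat.Agent.LT.H129
open Fermat.Agent.LT.T1.H793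
open Fermat.Agent.LT.T1.H919
open Fermat.Agent.LT.T2.H429
open scoped ComplexConjugate

noncomputable section

namespace Fermat.Agent.LT.T2.H439

open Fermat.Agent.LT
open Fermat.Agent.LT.T2.H941

variable {K : Type} [Field K] [NumberField K]

/-! ## Induction over finitely many finite places -/

/-- An element which is trivial at the infinite places, lies in the level group outside a finite
set `T` of finite places and whose local parts at the places of `T` lie in the subgroup `M`
(which contains the level group) lies in `M`. -/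
theorem mem_of_finset439 (M : Subgroup (G K)) (𝔪 : Ideal (𝓞 K))
    (hlev : ∀ u : G K, InLevelGroup 𝔪 u → u ∈ M) :
    ∀ (T : Finset (HeightOneSpectrum (𝓞 K))) (u : G K),
      (∀ w : InfinitePlace K, infCompHom129 w u = 1) →
      (∀ v : HeightOneSpectrum (𝓞 K), v ∉ T → ∀ i j : Fin 2,
        (finComp v u - 1) i j ∈ idealClosure 𝔪 v ∧ (finComp v u⁻¹ - 1) i j ∈ idealClosure 𝔪 v) →
      (∀ v ∈ T, locFin129 v (finCompHom129 v u) ∈ M) → u ∈ M := by
  classical
  intro T
  induction T using Finset.induction_on with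
  | empty =>
    intro u hI hF _
    exact hlev u ⟨fun w => (trivAtInf_iff129 w u).2 (hI w),
      fun v i j => hF v (Finset.notMem_empty v) i j⟩
  | insert v T hv ih =>
    intro u hI hF hT
    set ℓ : G K := locFin129 v (finCompHom129 v u) with hℓ
    have hℓM : ℓ ∈ M := hT v (Finset.mem_insert_self v T)
    have hcomp_v : finCompHom129 v (u * ℓ⁻¹) = 1 := by
      rw [map_mul, map_inv, hℓ, finCompHom129_locFin129, mul_inv_cancel]
    have hcomp_ne : ∀ v' : HeightOneSpectrum (𝓞 K), v' ≠ v →
        finCompHom129 v' (u * ℓ⁻¹) = finCompHom129 v' u := by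
      intro v' h
      rw [map_mul, map_inv, hℓ, finCompHom129_locFin129_of_ne v _ h, inv_one, mul_one]
    have hu' : u * ℓ⁻¹ ∈ M := by
      refine ih (u * ℓ⁻¹) ?_ ?_ ?_
      · intro w
        rw [map_mul, map_inv, hI w, hℓ, infCompHom129_locFin129, inv_one, mul_one]
      · intro v' hv' i j
        by_cases h : v' = v
        · subst h
          have e1 : finComp v' (u * ℓ⁻¹) = 1 := by
            rw [← coe_finCompHom129, hcomp_v]; rfl
          have e2 : finComp v' (u * ℓ⁻¹)⁻¹ = 1 := by
            rw [← coe_finCompHom129, map_inv, hcomp_v, inv_one]; rfl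
          rw [e1, e2, sub_self]
          exact ⟨zero_mem_idealClosure129 𝔪 v', zero_mem_idealClosure129 𝔪 v'⟩
        · have e1 : finComp v' (u * ℓ⁻¹) = finComp v' u := by
            rw [← coe_finCompHom129, hcomp_ne v' h]; rfl
          have e2 : finComp v' (u * ℓ⁻¹)⁻¹ = finComp v' u⁻¹ := by
            rw [← coe_finCompHom129, map_inv, hcomp_ne v' h, ← map_inv]; rfl
          rw [e1, e2]
          exact hF v' (fun hm => (Finset.mem_insert.1 hm).elim h hv') i j
      · intro v' hv'
        have h : v' ≠ v := fun e => hv (e ▸ hv')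
        rw [hcomp_ne v' h]
        exact hT v' (Finset.mem_insert_of_mem hv')
    have : u = u * ℓ⁻¹ * ℓ := by group
    rw [this]
    exact M.mul_mem hu' hℓM

/-! ## The infinite places -/

open scoped Classical in
/-- An element supported at the infinite places lies in the subgroup `M` as soon as its local
parts do. -/
theorem infMk_mem439 (M : Subgroup (G K)) (m : ∀ w : InfinitePlace K, GL (Fin 2) w.Completion)
    (h : ∀ w : InfinitePlace K, locInf429 w (m w) ∈ M) : infMk429 K m ∈ M := by
  have key : m ∈ M.comap (infMk429 K) :=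
    Subgroup.pi_mem_of_mulSingle_mem (H := M.comap (infMk429 K)) m (fun w => h w)
  exact key

/-! ## The basic right multipliers of an extendable function -/

theorem level_mem439 {𝔪 : Ideal (𝓞 K)} {Ψ : G K → ℂ} (hΨ : IsExtendable 𝔪 Ψ) {u : G K}
    (hu : InLevelGroup 𝔪 u) : u ∈ multGrp439 Ψ :=
  mem_multGrp_of_inv439 (fun g => hΨ.1.level_inv u hu g)

theorem archCompact_mem439 {𝔪 : Ideal (𝓞 K)} {Ψ : G K → ℂ} (hΨ : IsExtendable 𝔪 Ψ)
    {w : InfinitePlace K} {k : G K} (hk : IsArchCompact w k) : k ∈ multGrp439 Ψ :=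
  mem_multGrp_of_inv439 (fun g => hΨ.1.arch_compact w k hk g)

theorem archPos_mem439 {𝔪 : Ideal (𝓞 K)} {Ψ : G K → ℂ} (hΨ : IsExtendable 𝔪 Ψ)
    {w : InfinitePlace K} {z : G K} (hz : IsArchPosScalar w z) : z ∈ multGrp439 Ψ :=
  mem_multGrp_of_inv439 (fun g => hΨ.1.arch_scalar w z hz g)

theorem scalarUnif_mem439 {𝔪 : Ideal (𝓞 K)} {Ψ : G K → ℂ} (hΨ : IsExtendable 𝔪 Ψ)
    {v : HeightOneSpectrum (𝓞 K)} (hv : ¬ v.asIdeal ∣ 𝔪) {z : G K}
    (hz : IsScalarUniformizerAt v z) : z ∈ multGrp439 Ψ := by
  obtain ⟨b, hb⟩ := hΨ.2 v hv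
  exact ⟨b, hb z hz⟩

/-! ## Scalar matrices -/

section Scalar

variable {R : Type*} [CommRing R]

/-- The scalar matrices as a group homomorphism. -/
def scalarHom439 (R : Type*) [CommRing R] : Rˣ →* GL (Fin 2) R :=
  Units.map (Matrix.scalar (Fin 2) : R →+* Matrix (Fin 2) (Fin 2) R).toMonoidHom

theorem scalarHom439_apply (c : Rˣ) : scalarHom439 R c = scalarG919 c := rfl

theorem scalarG919_inv439 (c : Rˣ) : (scalarG919 c)⁻¹ = scalarG919 c⁻¹ := by
  rw [← scalarHom439_apply, ← scalarHom439_apply, map_inv]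

theorem scalarG919_mul439 (c d : Rˣ) : scalarG919 (c * d) = scalarG919 c * scalarG919 d := by
  rw [← scalarHom439_apply, ← scalarHom439_apply, ← scalarHom439_apply, map_mul]

theorem scalarG919_zpow439 (c : Rˣ) (n : ℤ) : scalarG919 (c ^ n) = scalarG919 c ^ n := by
  rw [← scalarHom439_apply, ← scalarHom439_apply, map_zpow]

theorem scalarG919_one439 : scalarG919 (1 : Rˣ) = 1 := by
  rw [← scalarHom439_apply, map_one]

theorem map_scalarG919_439 {S : Type*} [CommRing S] (f : R →+* S) (c : Rˣ) :
    Matrix.GeneralLinearGroup.map f (scalarG919 c) = scalarG919 (Units.map f.toMonoidHom c) := by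
  apply Units.ext
  ext i j
  rw [scalarG919_val]
  show f ((scalarG919 c : Matrix (Fin 2) (Fin 2) R) i j) = _
  rw [scalarG919_val]
  by_cases hij : i = j
  · subst hij
    rw [Matrix.diagonal_apply_eq, Matrix.diagonal_apply_eq]
    rfl
  · rw [Matrix.diagonal_apply_ne _ hij, Matrix.diagonal_apply_ne _ hij, map_zero]

end Scalar

/-! ## Local scalars at a finite place prime to the level -/

/-- A local scalar matrix of a unit of `𝒪_v`, `v ∤ 𝔪`, lies in the level group. -/
theorem locFin_scalar_unit_level439 {𝔪 : Ideal (𝓞 K)} {v : HeightOneSpectrum (𝓞 K)}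
    (hv : ¬ v.asIdeal ∣ 𝔪) (d : (v.adicCompletion K)ˣ)
    (hd : Valued.v (d : v.adicCompletion K) = 1) :
    InLevelGroup 𝔪 (locFin129 v (scalarG919 d)) := by
  have key : ∀ e : (v.adicCompletion K)ˣ, Valued.v (e : v.adicCompletion K) = 1 →
      IsIntegralAt v (locFin129 v (scalarG919 e)) := by
    intro e he i j
    rw [finComp_locFin129, scalarG919_val]
    by_cases hij : i = j
    · subst hij
      rw [Matrix.diagonal_apply_eq, HeightOneSpectrum.mem_adicCompletionIntegers, he]
    · rw [Matrix.diagonal_apply_ne _ hij]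
      exact zero_mem _
  apply inLevelGroup_of_localMaxCpt129 hv
  refine ⟨isLocalAtFin_locFin129 v _, key d hd, ?_⟩
  rw [← map_inv, scalarG919_inv439]
  apply key
  rw [Units.val_inv_eq_inv_val, map_inv₀, hd, inv_one]

/-- Every local scalar matrix at `v ∤ 𝔪` is a right multiplier of an extendable function. -/
theorem locFin_scalar_mem439 {𝔪 : Ideal (𝓞 K)} {Ψ : G K → ℂ} (hΨ : IsExtendable 𝔪 Ψ)
    {v : HeightOneSpectrum (𝓞 K)} (hv : ¬ v.asIdeal ∣ 𝔪)
    (hz : ∃ z : G K, IsScalarUniformizerAt v z) (c : (v.adicCompletion K)ˣ) :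
    locFin129 v (scalarG919 c) ∈ multGrp439 Ψ := by
  obtain ⟨z, hzu⟩ := hz
  have hzM : z ∈ multGrp439 Ψ := scalarUnif_mem439 hΨ hv hzu
  obtain ⟨hloc, ϖ, hϖ, hzϖ⟩ := hzu
  have hϖ0 : ϖ ≠ 0 := unif_ne_zero129 v hϖ
  set p : (v.adicCompletion K)ˣ := Units.mk0 ϖ hϖ0 with hp
  have hz_eq : z = locFin129 v (scalarG919 p) := by
    rw [eq_locFin129_of_isLocalAtFin hloc]
    congr 1
    apply Units.ext
    rw [coe_finCompHom129, hzϖ, scalarG919_val]
    rfl
  have hc0 : Valued.v (c : v.adicCompletion K) ≠ 0 :=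
    (Valuation.ne_zero_iff _).2 c.ne_zero
  set n : ℤ := WithZero.log (Valued.v (c : v.adicCompletion K)) with hn
  have hcn : Valued.v (c : v.adicCompletion K) = WithZero.exp n := (WithZero.exp_log hc0).symm
  have hd : Valued.v (((c * p ^ n : (v.adicCompletion K)ˣ)) : v.adicCompletion K) = 1 := by
    rw [Units.val_mul, Units.val_zpow_eq_zpow_val, map_mul, map_zpow₀, hcn]
    show WithZero.exp n * Valued.v ϖ ^ n = 1
    rw [hϖ, ← WithZero.exp_zsmul, ← WithZero.exp_add]
    simp
  have hlev := locFin_scalar_unit_level439 hv (c * p ^ n) hd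
  have e : locFin129 v (scalarG919 c)
      = locFin129 v (scalarG919 (c * p ^ n)) * (z ^ n)⁻¹ := by
    rw [hz_eq, ← map_zpow, ← scalarG919_zpow439, ← map_inv, scalarG919_inv439, ← map_mul,
      ← scalarG919_mul439, mul_inv_cancel_right]
  rw [e]
  exact (multGrp439 Ψ).mul_mem (level_mem439 hΨ hlev)
    ((multGrp439 Ψ).inv_mem ((multGrp439 Ψ).zpow_mem hzM n))

/-! ## Local scalars at an infinite place -/

theorem map_diagonal439 {R S : Type*} [CommRing R] [CommRing S] (f : R →+* S) (c : R) :
    (Matrix.diagonal (fun _ : Fin 2 => c)).map f = Matrix.diagonal (fun _ : Fin 2 => f c) := by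
  ext i j
  rw [Matrix.map_apply]
  by_cases hij : i = j
  · subst hij
    rw [Matrix.diagonal_apply_eq, Matrix.diagonal_apply_eq]
  · rw [Matrix.diagonal_apply_ne _ hij, Matrix.diagonal_apply_ne _ hij, map_zero]

/-- Every local scalar matrix at an infinite place is a right multiplier of an extendable
function: it is the product of a positive real scalar and of a scalar of absolute value `1`,
which lies in `U(2)`, resp. is `± 1 ∈ SO(2)`. -/
theorem locInf_scalar_mem439 {𝔪 : Ideal (𝓞 K)} {Ψ : G K → ℂ} (hΨ : IsExtendable 𝔪 Ψ)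
    (w : InfinitePlace K) (c : (w.Completion)ˣ) :
    locInf429 w (scalarG919 c) ∈ multGrp439 Ψ := by
  set r : ℝ := ‖(c : w.Completion)‖ with hr
  have hr0 : 0 < r := norm_pos_iff.2 c.ne_zero
  have hρ0 : realTo919 w r ≠ 0 := by
    intro h
    have h1 := norm_realTo919 w r
    rw [h, norm_zero] at h1
    exact hr0.ne' (abs_eq_zero.1 h1.symm)
  set ρ : (w.Completion)ˣ := Units.mk0 (realTo919 w r) hρ0 with hρ
  have hρv : (ρ : w.Completion) = realTo919 w r := rfl
  -- the positive scalar
  have hP : IsArchPosScalar w (locInf429 w (scalarG919 ρ)) := by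
    refine ⟨isLocalAtInf_locInf429 w _, r, hr0, ?_⟩
    rw [infComp_locInf429, scalarG919_val, map_diagonal439, hρv, extensionEmbedding_realTo919]
  -- the scalar of absolute value one
  set ζ : ℂ := InfinitePlace.Completion.extensionEmbedding w
    (((c * ρ⁻¹ : (w.Completion)ˣ)) : w.Completion) with hζ
  have hζ1 : ‖ζ‖ = 1 := by
    rw [hζ, norm_extensionEmbedding793, Units.val_mul, norm_mul, Units.val_inv_eq_inv_val,
      norm_inv, hρv, norm_realTo919, abs_of_pos hr0]
    exact mul_inv_cancel₀ hr0.ne'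
  have hζ2 : ζ * (starRingEnd ℂ) ζ = 1 := by
    rw [Complex.mul_conj, Complex.normSq_eq_norm_sq, hζ1]
    simp
  have hQ : IsArchCompact w (locInf429 w (scalarG919 (c * ρ⁻¹))) := by
    refine ⟨isLocalAtInf_locInf429 w _, ?_, ?_⟩
    · rw [infComp_locInf429, scalarG919_val, map_diagonal439, Matrix.diagonal_conjTranspose,
        Matrix.diagonal_mul_diagonal]
      have : (fun i : Fin 2 => ζ * star (fun _ : Fin 2 => ζ) i) = fun _ => (1 : ℂ) := by
        funext i
        exact hζ2
      rw [← hζ, this, Matrix.diagonal_one]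
    · intro hw
      rw [infComp_locInf429, scalarG919_val, map_diagonal439, Matrix.det_diagonal,
        Fin.prod_univ_two, ← hζ]
      have hreal : ζ = ((InfinitePlace.Completion.extensionEmbeddingOfIsReal hw
          (((c * ρ⁻¹ : (w.Completion)ˣ)) : w.Completion) : ℝ) : ℂ) := by
        rw [hζ, InfinitePlace.Completion.extensionEmbeddingOfIsReal_apply]
      have hconj : (starRingEnd ℂ) ζ = ζ := by
        rw [hreal, Complex.conj_ofReal]
      rw [hconj] at hζ2
      exact hζ2
  have e : locInf429 w (scalarG919 c)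
      = locInf429 w (scalarG919 ρ) * locInf429 w (scalarG919 (c * ρ⁻¹)) := by
    rw [← map_mul, ← scalarG919_mul439, mul_comm c, mul_inv_cancel_left]
  rw [e]
  exact (multGrp439 Ψ).mul_mem (archPos_mem439 hΨ hP) (archCompact_mem439 hΨ hQ)

/-! ## Central elements -/

/-- The components of a unit of the adele ring. -/
def unitF439 (v : HeightOneSpectrum (𝓞 K)) : (Adl K)ˣ →* (v.adicCompletion K)ˣ :=
  Units.map (evF129 v).toMonoidHom

/-- The components of a unit of the adele ring. -/
def unitI439 (w : InfinitePlace K) : (Adl K)ˣ →* (w.Completion)ˣ :=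
  Units.map (evI129 w).toMonoidHom

theorem unitF439_val (v : HeightOneSpectrum (𝓞 K)) (c : (Adl K)ˣ) :
    ((unitF439 v c : (v.adicCompletion K)ˣ) : v.adicCompletion K) = (c : Adl K).2 v := rfl

theorem unitI439_val (w : InfinitePlace K) (c : (Adl K)ˣ) :
    ((unitI439 w c : (w.Completion)ˣ) : w.Completion) = (c : Adl K).1 w := rfl

theorem finCompHom_scalar439 (v : HeightOneSpectrum (𝓞 K)) (c : (Adl K)ˣ) :
    finCompHom129 v (scalarG919 c) = scalarG919 (unitF439 v c) :=
  map_scalarG919_439 (evF129 v) c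

theorem infCompHom_scalar439 (w : InfinitePlace K) (c : (Adl K)ˣ) :
    infCompHom129 w (scalarG919 c) = scalarG919 (unitI439 w c) :=
  map_scalarG919_439 (evI129 w) c

/-- The components of an idele are units of `𝒪_v` at almost all `v`. -/
theorem finite_bad439 (c : (Adl K)ˣ) :
    {v : HeightOneSpectrum (𝓞 K) | ¬ Valued.v ((c : Adl K).2 v) = 1}.Finite := by
  have h1 : ∀ᶠ v : HeightOneSpectrum (𝓞 K) in Filter.cofinite,
      (c : Adl K).2 v ∈ v.adicCompletionIntegers K := (c : Adl K).2.2
  have h2 : ∀ᶠ v : HeightOneSpectrum (𝓞 K) in Filter.cofinite,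
      ((c⁻¹ : (Adl K)ˣ) : Adl K).2 v ∈ v.adicCompletionIntegers K :=
    ((c⁻¹ : (Adl K)ˣ) : Adl K).2.2
  have h3 : ∀ᶠ v : HeightOneSpectrum (𝓞 K) in Filter.cofinite,
      Valued.v ((c : Adl K).2 v) = 1 := by
    filter_upwards [h1, h2] with v hv1 hv2
    rw [HeightOneSpectrum.mem_adicCompletionIntegers] at hv1 hv2
    have e : ((c⁻¹ : (Adl K)ˣ) : Adl K).2 v = ((c : Adl K).2 v)⁻¹ := by
      rw [← unitF439_val, ← unitF439_val, map_inv, Units.val_inv_eq_inv_val]
    rw [e, map_inv₀] at hv2
    have hne : Valued.v ((c : Adl K).2 v) ≠ 0 := by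
      rw [← unitF439_val]
      exact (Valuation.ne_zero_iff _).2 (unitF439 v c).ne_zero
    exact le_antisymm hv1 ((inv_le_one₀ (zero_lt_iff.2 hne)).1 hv2)
  exact Filter.eventually_cofinite.1 h3

/-- **Central elements.**  The scalar matrix of an idele which is `1` at the places dividing `𝔪`
is a right multiplier of an extendable function of level `𝔪`. -/
theorem scalar_mem439 {𝔪 : Ideal (𝓞 K)} {Ψ : G K → ℂ} (hΨ : IsExtendable 𝔪 Ψ)
    (hunif : ∀ v : HeightOneSpectrum (𝓞 K), ∃ z : G K, IsScalarUniformizerAt v z)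
    (c : (Adl K)ˣ)
    (hc : ∀ v : HeightOneSpectrum (𝓞 K), v.asIdeal ∣ 𝔪 → (c : Adl K).2 v = 1) :
    scalarG919 c ∈ multGrp439 Ψ := by
  classical
  set zI : G K := infMk429 K (fun w => scalarG919 (unitI439 w c)) with hzI
  have hzIM : zI ∈ multGrp439 Ψ :=
    infMk_mem439 _ _ (fun w => locInf_scalar_mem439 hΨ w _)
  set zF : G K := scalarG919 c * zI⁻¹ with hzF
  have hFI : ∀ w : InfinitePlace K, infCompHom129 w zF = 1 := by
    intro w
    rw [hzF, map_mul, map_inv, infCompHom_scalar439, hzI, infCompHom_infMk429, mul_inv_cancel]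
  have hFF : ∀ v : HeightOneSpectrum (𝓞 K), finCompHom129 v zF = scalarG919 (unitF439 v c) := by
    intro v
    rw [hzF, map_mul, map_inv, finCompHom_scalar439, hzI, finCompHom_infMk429, inv_one, mul_one]
  have hzFM : zF ∈ multGrp439 Ψ := by
    refine mem_of_finset439 (multGrp439 Ψ) 𝔪 (fun u hu => level_mem439 hΨ hu)
      (finite_bad439 c).toFinset zF hFI ?_ ?_
    · intro v hv i j
      rw [Set.Finite.mem_toFinset, Set.mem_ofPred_eq, not_not] at hv
      by_cases hdiv : v.asIdeal ∣ 𝔪
      · have h1 : unitF439 v c = 1 := Units.ext (by rw [unitF439_val, hc v hdiv]; rfl)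
        have e1 : finComp v zF = 1 := by
          rw [← coe_finCompHom129, hFF, h1, scalarG919_one439]; rfl
        have e2 : finComp v zF⁻¹ = 1 := by
          rw [← coe_finCompHom129, map_inv, hFF, h1, scalarG919_one439, inv_one]; rfl
        rw [e1, e2, sub_self]
        exact ⟨zero_mem_idealClosure129 𝔪 v, zero_mem_idealClosure129 𝔪 v⟩
      · have hlev := locFin_scalar_unit_level439 hdiv (unitF439 v c)
          (by rw [unitF439_val]; exact hv)
        have h := hlev.2 v i j
        have e1 : finComp v (locFin129 v (scalarG919 (unitF439 v c))) = finComp v zF := by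
          rw [← coe_finCompHom129, ← coe_finCompHom129, finCompHom129_locFin129, hFF]
        have e2 : finComp v (locFin129 v (scalarG919 (unitF439 v c)))⁻¹ = finComp v zF⁻¹ := by
          rw [← coe_finCompHom129, ← coe_finCompHom129, map_inv, map_inv,
            finCompHom129_locFin129, hFF]
        rw [e1, e2] at h
        exact h
    · intro v hv
      rw [Set.Finite.mem_toFinset, Set.mem_ofPred_eq] at hv
      have hdiv : ¬ v.asIdeal ∣ 𝔪 := by
        intro hdiv
        apply hv
        rw [hc v hdiv, map_one]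
      rw [hFF]
      exact locFin_scalar_mem439 hΨ hdiv (hunif v) _
  have : scalarG919 c = zF * zI := by
    rw [hzF, inv_mul_cancel_right]
  rw [this]
  exact (multGrp439 Ψ).mul_mem hzFM hzIM

end Fermat.Agent.LT.T2.H439

end
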