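import Mathlib
import Fermat.Agent.LT.T2.H439.Gen
import Fermat.Agent.LT.T1.H793.IwasawaAdelic

/-!
# Row LT, tower T2, leaf T2.10.05 `ExtendC` (helper439, OFF-MAIN)

`leaf05_h439 (K) : H941.Leaf05 K`, i.e. `T1.T1Out K → WhitDetC K → WeakApproxC K → ExtendC K`,
VERBATIM against `LT/T2/H941/SmoSpec.lean` v2 (helper941@3ff5e4e6b, sha256 14c4d13ef051).

Proof.  Let `Ψ` be extendable of level `𝔪` with `W_Ψ = 0` on the torus.  By weak approximation
`g` may be replaced by `g₁ = γ g` with `g₁ ∈ U(𝔪)_v` at every `v ∣ 𝔪`.  By `WhitDetC` it is enough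
to show `W_Ψ(t(α) g₁) = 0` for `α ∈ Kˣ`.  REFINED IWASAWA DECOMPOSITION (`exists_decomp439`):
`t(α) g₁ = b k_f k_∞` with `b` upper triangular, `b₂₂ = 1` at the places dividing `𝔪`,
`k_f ∈ U(𝔪)`, `k_∞` a product of elements of the compact groups at the infinite places (at
`v ∣ 𝔪` the component of `k_f` is the one of `g₁`, elsewhere the local Iwasawa decomposition of
helper793 is used).  Then `b = n(x) t(y) z`, `z` the scalar matrix of the idele `b₂₂`, and
`z k_f k_∞` is a right multiplier of `Ψ` (`scalar_mem439`), so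
`W(t(α) g₁) = ψ(x) · const · W(t(y)) = 0`.
-/

set_option autoImplicit false
set_option linter.style.haveILetI false
set_option linter.unusedSectionVars false

open IsDedekindDomain NumberField AutomorphicForm MeasureTheory
open Fermat.Agent.LT.H556.A0
open Fermat.Agent.LT.H129
open Fermat.Agent.LT.T1.H793
open Fermat.Agent.LT.T1.H919
open Fermat.Agent.LT.T2.H429
open scoped ComplexConjugate

noncomputable section

namespace Fermat.Agent.LT.T2.H439

open Fermat.Agent.LT
open Fermat.Agent.LT.T2.H941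

variable {K : Type} [Field K] [NumberField K]

/-! ## Integrality -/

/-- The closure of an ideal in `K_v` consists of integers. -/
theorem idealClosure_le_int439 (𝔪 : Ideal (𝓞 K)) (v : HeightOneSpectrum (𝓞 K))
    {x : v.adicCompletion K} (hx : x ∈ idealClosure 𝔪 v) :
    x ∈ v.adicCompletionIntegers K := by
  have hsub : ((fun a : 𝓞 K => algebraMap K (v.adicCompletion K) (algebraMap (𝓞 K) K a)) ''
      (𝔪 : Set (𝓞 K))) ⊆ (v.adicCompletionIntegers K : Set (v.adicCompletion K)) := by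
    rintro _ ⟨a, -, rfl⟩
    show algebraMap K (v.adicCompletion K) (algebraMap (𝓞 K) K a) ∈ v.adicCompletionIntegers K
    rw [HeightOneSpectrum.mem_adicCompletionIntegers]
    have h1 : Valued.v (algebraMap K (v.adicCompletion K) (algebraMap (𝓞 K) K a))
        = v.valuation K (algebraMap (𝓞 K) K a) :=
      HeightOneSpectrum.valuedAdicCompletion_eq_valuation' v _
    rw [h1]
    exact v.valuation_le_one a
  exact closure_minimal hsub (Valued.isClosed_valuationSubring (v.adicCompletion K)) hx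

theorem one_apply_int439 (v : HeightOneSpectrum (𝓞 K)) (i j : Fin 2) :
    (1 : Matrix (Fin 2) (Fin 2) (v.adicCompletion K)) i j ∈ v.adicCompletionIntegers K := by
  by_cases hij : i = j
  · subst hij
    rw [Matrix.one_apply_eq]
    exact one_mem _
  · rw [Matrix.one_apply_ne hij]
    exact zero_mem _

/-- A matrix which is `1` modulo the closure of an ideal is integral. -/
theorem int_of_sub_one439 (𝔪 : Ideal (𝓞 K)) (v : HeightOneSpectrum (𝓞 K))
    (M : Matrix (Fin 2) (Fin 2) (v.adicCompletion K))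
    (h : ∀ i j, (M - 1) i j ∈ idealClosure 𝔪 v) (i j : Fin 2) :
    M i j ∈ v.adicCompletionIntegers K := by
  have e : M i j = (M - 1) i j + (1 : Matrix (Fin 2) (Fin 2) (v.adicCompletion K)) i j := by
    rw [Matrix.sub_apply, sub_add_cancel]
  rw [e]
  exact add_mem (idealClosure_le_int439 𝔪 v (h i j)) (one_apply_int439 v i j)

/-- An integral matrix is `1` modulo the closure of an ideal prime to `v`. -/
theorem sub_one_mem_of_int439 {𝔪 : Ideal (𝓞 K)} {v : HeightOneSpectrum (𝓞 K)}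
    (hv : ¬ v.asIdeal ∣ 𝔪) (M : Matrix (Fin 2) (Fin 2) (v.adicCompletion K))
    (h : ∀ i j, M i j ∈ v.adicCompletionIntegers K) (i j : Fin 2) :
    (M - 1) i j ∈ idealClosure 𝔪 v := by
  apply dense_ideal129 hv
  rw [Matrix.sub_apply]
  have h1 := h i j
  have h2 := one_apply_int439 v i j
  rw [HeightOneSpectrum.mem_adicCompletionIntegers] at h1 h2
  exact le_trans (Valuation.map_sub _ _ _) (max_le h1 h2)

/-! ## The refined Iwasawa decomposition -/

/-- **Refined Iwasawa decomposition.**  If `g₁ ∈ U(𝔪)_v` and the component of `t` is upper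
triangular with lower right entry `1` at every `v ∣ 𝔪`, then `t g₁ = b k_f k_∞` with `b` upper
triangular, `b₂₂ = 1` at the places dividing `𝔪`, `k_f ∈ U(𝔪)` and `k_∞` supported at the infinite
places with local parts in the compact groups. -/
theorem exists_decomp439 (𝔪 : Ideal (𝓞 K)) (t g₁ : G K)
    (ht : ∀ v : HeightOneSpectrum (𝓞 K), v.asIdeal ∣ 𝔪 →
      finComp v t 1 0 = 0 ∧ finComp v t 1 1 = 1)
    (hg₁ : ∀ v : HeightOneSpectrum (𝓞 K), v.asIdeal ∣ 𝔪 → ∀ i j : Fin 2,
      (finComp v g₁ - 1) i j ∈ idealClosure 𝔪 v ∧ (finComp v g₁⁻¹ - 1) i j ∈ idealClosure 𝔪 v) :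
    ∃ (b kF : G K) (m : ∀ w : InfinitePlace K, GL (Fin 2) w.Completion),
      t * g₁ = b * (kF * infMk429 K m) ∧ T1.IsUpper K b ∧
      (∀ v : HeightOneSpectrum (𝓞 K), v.asIdeal ∣ 𝔪 →
        ((b : Matrix (Fin 2) (Fin 2) (Adl K)) 1 1).2 v = 1) ∧
      InLevelGroup 𝔪 kF ∧ ∀ w : InfinitePlace K, IsArchCompact w (locInf429 w (m w)) := by
  classical
  choose kw hkw1 hkw2 hkw3 using
    fun w : InfinitePlace K => iwasawaInf793 w (glInf793 w (t * g₁))
  choose kv0 hkv1 hkv2 hkv3 using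
    fun v : HeightOneSpectrum (𝓞 K) => iwasawaFin793 v (glFin793 v (t * g₁))
  set kv : ∀ v : HeightOneSpectrum (𝓞 K), GL (Fin 2) (v.adicCompletion K) :=
    fun v => if v.asIdeal ∣ 𝔪 then finCompHom129 v g₁ else kv0 v with hkv
  have kv_pos : ∀ v : HeightOneSpectrum (𝓞 K), v.asIdeal ∣ 𝔪 → kv v = finCompHom129 v g₁ :=
    fun v h => by simp only [hkv, if_pos h]
  have kv_neg : ∀ v : HeightOneSpectrum (𝓞 K), ¬ v.asIdeal ∣ 𝔪 → kv v = kv0 v :=
    fun v h => by simp only [hkv, if_neg h]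
  have h1 : ∀ v i j, (kv v : Matrix (Fin 2) (Fin 2) (v.adicCompletion K)) i j
      ∈ v.adicCompletionIntegers K := by
    intro v i j
    by_cases h : v.asIdeal ∣ 𝔪
    · rw [kv_pos v h, coe_finCompHom129]
      exact int_of_sub_one439 𝔪 v _ (fun i j => (hg₁ v h i j).1) i j
    · rw [kv_neg v h]
      exact hkv2 v i j
  have h2 : ∀ v i j, (((kv v)⁻¹ : GL (Fin 2) (v.adicCompletion K)) :
      Matrix (Fin 2) (Fin 2) (v.adicCompletion K)) i j ∈ v.adicCompletionIntegers K := by
    intro v i j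
    by_cases h : v.asIdeal ∣ 𝔪
    · rw [kv_pos v h, ← map_inv, coe_finCompHom129]
      exact int_of_sub_one439 𝔪 v _ (fun i j => (hg₁ v h i j).2) i j
    · rw [kv_neg v h]
      exact hkv3 v i j
  set kF : G K := glMk793 (fun _ => 1) kv h1 h2 with hkF
  have kF_inf : ∀ w : InfinitePlace K, infCompHom129 w kF = 1 := by
    intro w
    rw [← glInf_eq429, hkF, glInf793_glMk]
  have kF_fin : ∀ v : HeightOneSpectrum (𝓞 K), finCompHom129 v kF = kv v := by
    intro v
    rw [← glFin_eq429, hkF, glFin793_glMk]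
  set b : G K := t * g₁ * (kF * infMk429 K kw)⁻¹ with hb
  have b_inf : ∀ w : InfinitePlace K,
      infCompHom129 w b = infCompHom129 w (t * g₁) * (kw w)⁻¹ := by
    intro w
    have e : infCompHom129 w (kF * infMk429 K kw) = kw w := by
      rw [map_mul, kF_inf, infCompHom_infMk429, one_mul]
    rw [hb, map_mul, map_inv, e]
  have b_fin : ∀ v : HeightOneSpectrum (𝓞 K),
      finCompHom129 v b = finCompHom129 v (t * g₁) * (kv v)⁻¹ := by
    intro v
    have e : finCompHom129 v (kF * infMk429 K kw) = kv v := by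
      rw [map_mul, kF_fin, finCompHom_infMk429, mul_one]
    rw [hb, map_mul, map_inv, e]
  have b_fin_pos : ∀ v : HeightOneSpectrum (𝓞 K), v.asIdeal ∣ 𝔪 →
      finCompHom129 v b = finCompHom129 v t := by
    intro v h
    rw [b_fin, kv_pos v h, map_mul, mul_inv_cancel_right]
  refine ⟨b, kF, kw, by rw [hb, inv_mul_cancel_right], ?_, ?_, ?_, ?_⟩
  · -- `b` is upper triangular
    show (b : Matrix (Fin 2) (Fin 2) (Adl K)) 1 0 = 0
    refine adele_ext129 (fun w => ?_) (fun v => ?_)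
    · have e : ((b : Matrix (Fin 2) (Fin 2) (Adl K)) 1 0).1 w
          = ((infCompHom129 w b : GL (Fin 2) w.Completion) :
              Matrix (Fin 2) (Fin 2) w.Completion) 1 0 := rfl
      rw [e, b_inf, ← glInf_eq429, hkw1 w]
      rfl
    · have e : ((b : Matrix (Fin 2) (Fin 2) (Adl K)) 1 0).2 v
          = ((finCompHom129 v b : GL (Fin 2) (v.adicCompletion K)) :
              Matrix (Fin 2) (Fin 2) (v.adicCompletion K)) 1 0 := rfl
      rw [e]
      by_cases h : v.asIdeal ∣ 𝔪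
      · rw [b_fin_pos v h, coe_finCompHom129, (ht v h).1]
        rfl
      · rw [b_fin, kv_neg v h, ← glFin_eq429, hkv1 v]
        rfl
  · intro v h
    have e : ((b : Matrix (Fin 2) (Fin 2) (Adl K)) 1 1).2 v
        = ((finCompHom129 v b : GL (Fin 2) (v.adicCompletion K)) :
            Matrix (Fin 2) (Fin 2) (v.adicCompletion K)) 1 1 := rfl
    rw [e, b_fin_pos v h, coe_finCompHom129, (ht v h).2]
  · -- `kF` lies in the level group
    refine ⟨fun w => (trivAtInf_iff129 w kF).2 (kF_inf w), fun v i j => ?_⟩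
    have e1 : finComp v kF = (kv v : Matrix (Fin 2) (Fin 2) (v.adicCompletion K)) := by
      rw [← coe_finCompHom129, kF_fin]
    have e2 : finComp v kF⁻¹ = (((kv v)⁻¹ : GL (Fin 2) (v.adicCompletion K)) :
        Matrix (Fin 2) (Fin 2) (v.adicCompletion K)) := by
      rw [← coe_finCompHom129, map_inv, kF_fin]
    by_cases h : v.asIdeal ∣ 𝔪
    · rw [e1, e2, kv_pos v h, ← map_inv, coe_finCompHom129, coe_finCompHom129]
      exact hg₁ v h i j
    · rw [e1, e2]
      exact ⟨sub_one_mem_of_int439 h _ (h1 v) i j, sub_one_mem_of_int439 h _ (h2 v) i j⟩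
  · intro w
    refine ⟨isLocalAtInf_locInf429 w _, ?_, ?_⟩
    · rw [infComp_locInf429]
      exact hkw2 w
    · rw [infComp_locInf429]
      exact hkw3 w

/-! ## Rational torus, unipotent and torus elements -/

/-- The rational torus element `diag(α, 1)` of `GL₂(K)`. -/
def diagK439 (α : Kˣ) : GL (Fin 2) K :=
  ⟨!![(α : K), 0; 0, 1], !![((α⁻¹ : Kˣ) : K), 0; 0, 1],
    by ext i j; fin_cases i <;> fin_cases j <;> simp [Matrix.mul_apply, Fin.sum_univ_two],
    by ext i j; fin_cases i <;> fin_cases j <;> simp [Matrix.mul_apply, Fin.sum_univ_two]⟩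

theorem ratG_diagK439 (α : Kˣ) : T1.ratG K (diagK439 α) = T3.torK K α := by
  apply Units.ext
  ext i j
  fin_cases i <;> fin_cases j <;>
    simp [T1.ratG, T3.torK, diagK439, Matrix.GeneralLinearGroup.map]

/-- `[[y, x], [0, 1]] = n(x) t(y)`. -/
theorem up_eq439 (y : (Adl K)ˣ) (x : Adl K) : up919 y x = T3.unip K x * tor y := by
  apply Units.ext
  rw [Units.val_mul, up919_val]
  show _ = (!![1, x; 0, 1] : Matrix (Fin 2) (Fin 2) (Adl K)) * !![(y : Adl K), 0; 0, 1]
  rw [Matrix.mul_fin_two]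
  congr 1
  simp

theorem finComp_torK439 (v : HeightOneSpectrum (𝓞 K)) (α : Kˣ) :
    finComp v (T3.torK K α) 1 0 = 0 ∧ finComp v (T3.torK K α) 1 1 = 1 :=
  ⟨rfl, rfl⟩

/-! ## The leaf -/

/-- **T2.10.05 `ExtendC`** (`H941.Leaf05`, VERBATIM). -/
theorem leaf05_h439 (K : Type) [Field K] [NumberField K] :
    Fermat.Agent.LT.T2.H941.Leaf05 K := by
  intro hT1 hWD hWA
  letI : MeasurableSpace (Adl K) := borel (Adl K)
  intro ψ ν D hW 𝔪 h𝔪 Ψ hΨ htor g
  obtain ⟨γ, hγ⟩ := hWA 𝔪 h𝔪 g
  have hleft : ∀ (γ : GL (Fin 2) K) (g : G K), Ψ (T1.ratG K γ * g) = Ψ g := hΨ.1.left_inv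
  rw [← hleft γ g]
  refine hWD ψ ν D hW Ψ hΨ.1.cont ?_ ?_ hΨ.1.cuspidal (T1.ratG K γ * g) ?_
  · intro ξ g'
    have e : T3.unip K (algebraMap K (Adl K) ξ) = T1.ratG K (unipK439 ξ) :=
      (ratG_unipK439 ξ).symm
    rw [e]
    exact hleft _ _
  · intro α g'
    rw [← ratG_diagK439]
    exact hleft _ _
  · intro α
    obtain ⟨b, kF, m, hdec, hb, hb11, hkF, hm⟩ :=
      exists_decomp439 𝔪 (T3.torK K α) (T1.ratG K γ * g) (fun v _ => finComp_torK439 v α) hγ
    obtain ⟨ha1, ha2⟩ := isUnit_diag793 hb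
    have hbdec := upper_eq_scalar_mul_up919 b hb ha1.unit ha2.unit
      (IsUnit.unit_spec ha1) (IsUnit.unit_spec ha2)
    have hu : scalarG919 ha2.unit * (kF * infMk429 K m) ∈ multGrp439 Ψ := by
      refine (multGrp439 Ψ).mul_mem ?_ ((multGrp439 Ψ).mul_mem (level_mem439 hΨ hkF)
        (infMk_mem439 _ m (fun w => archCompact_mem439 hΨ (hm w))))
      refine scalar_mem439 hΨ (fun v => (hT1.heckeCoset v).2.2) ha2.unit (fun v hv => ?_)
      rw [IsUnit.unit_spec]
      exact hb11 v hv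
    have e : T3.torK K α * (T1.ratG K γ * g)
        = T3.unip K ((b : Matrix (Fin 2) (Fin 2) (Adl K)) 0 1
            * (((ha2.unit)⁻¹ : (Adl K)ˣ) : Adl K))
          * (tor (ha1.unit * (ha2.unit)⁻¹)
            * (scalarG919 ha2.unit * (kF * infMk429 K m))) := by
      rw [hdec]
      conv_lhs => rw [hbdec]
      rw [scalarG919_comm, up_eq439]
      simp only [mul_assoc]
    rw [e, wh_unip439 ψ ν D hW Ψ hleft,
      wh_mul_right439 ψ ν D Ψ hu (tor (ha1.unit * (ha2.unit)⁻¹)) (htor _), mul_zero]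

end Fermat.Agent.LT.T2.H439

end
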